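import Fermat.Agent.Lib.Newform.H958.X.Spec
import Fermat.Agent.Lib.Newform.H923.AL

/-!
# NEWFORM block X (helper16): the Fricke leaves `X1`, `X1b`, `X1c`

The Fricke matrix `W_N = [[0, -1], [N, 0]]` is the Atkin–Lehner matrix at `q = N` for the level
`N * 1`, so all three leaves follow from the Atkin–Lehner calculus of `H923/AL.lean`:

* `frickeOp     : H958.X.FrickeOp`     (`f ∣[2] W_N` is a cusp form on `Γ₀(N)`),
* `frickeInvol  : H958.X.FrickeInvol`  (`W_N² = -N`, scalars act trivially in weight `2`),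
* `frickeHecke  : H958.X.FrickeHecke`  (`T_ℓ` commutes with `W_N`, `ℓ ∤ N`).
-/

set_option autoImplicit false

noncomputable section

namespace Fermat.Agent.Lib.Newform.H16

open Matrix UpperHalfPlane ModularForm CongruenceSubgroup ConjAct
open scoped MatrixGroups ModularForm Pointwise
open Fermat.Agent.Lib.Newform

theorem isInt_frickeMatrix (N : ℕ) [NeZero N] :
    H923.IsInt (H958.X.frickeMatrix N) 0 (-1) N 0 := by
  unfold H923.IsInt H958.X.frickeMatrix
  simp

/-- The Fricke matrix is the Atkin–Lehner matrix at `q = N` for the level `N * 1`. -/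
theorem isAL_frickeMatrix (N : ℕ) [NeZero N] : H923.IsAL N 1 (H958.X.frickeMatrix N) := by
  refine ⟨0, -1, 1, 0, ?_, by norm_num⟩
  have h := isInt_frickeMatrix N
  unfold H923.IsInt at h ⊢
  rw [h]
  simp

theorem invUnder_mul_one {N : ℕ} {k : ℤ} {f : ℍ → ℂ} (hf : H923.InvUnder N k f) :
    H923.InvUnder (N * 1) k f := by
  rwa [Nat.mul_one]

theorem invUnder_of_mul_one {N : ℕ} {k : ℤ} {f : ℍ → ℂ} (hf : H923.InvUnder (N * 1) k f) :
    H923.InvUnder N k f := by
  rwa [Nat.mul_one] at hf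

/-- `Γ₀(N) ≤ W⁻¹ Γ₀(N) W`. -/
theorem Gamma0_le_conj_frickeMatrix (N : ℕ) [NeZero N] :
    (Gamma0 N : Subgroup (GL (Fin 2) ℝ)) ≤
      toConjAct (H958.X.frickeMatrix N)⁻¹ • (Gamma0 N : Subgroup (GL (Fin 2) ℝ)) := by
  rintro _ ⟨g, hg, rfl⟩
  have hg' : g ∈ Gamma0 (N * 1) := by rwa [Nat.mul_one]
  obtain ⟨g', hg'mem, hmul⟩ :=
    (isAL_frickeMatrix N).exists_eq_mul ((isAL_frickeMatrix N).mul_mapGL hg')
  rw [Subgroup.mem_pointwise_smul_iff_inv_smul_mem, ← toConjAct_inv, inv_inv, toConjAct_smul,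
    hmul, mul_inv_cancel_right]
  refine Subgroup.mem_map_of_mem _ ?_
  rwa [Nat.mul_one] at hg'mem

/-- The Fricke operator on cusp forms of weight `2` and level `Γ₀(N)`. -/
def frickeCusp {N : ℕ} [NeZero N] (f : CuspForm (Gamma0 N) 2) : CuspForm (Gamma0 N) 2 where
  toFun := (⇑f : ℍ → ℂ) ∣[(2 : ℤ)] H958.X.frickeMatrix N
  slash_action_eq' γ hγ :=
    (CuspForm.translate f (H958.X.frickeMatrix N)).slash_action_eq' γ
      (Gamma0_le_conj_frickeMatrix N hγ)
  holo' := (CuspForm.translate f (H958.X.frickeMatrix N)).holo'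
  zero_at_cusps' hc :=
    (CuspForm.translate f (H958.X.frickeMatrix N)).zero_at_cusps'
      (hc.mono (Gamma0_le_conj_frickeMatrix N))

@[simp] theorem coe_frickeCusp {N : ℕ} [NeZero N] (f : CuspForm (Gamma0 N) 2) :
    (⇑(frickeCusp f) : ℍ → ℂ) = (⇑f : ℍ → ℂ) ∣[(2 : ℤ)] H958.X.frickeMatrix N := rfl

/-- **X1**: the Fricke involution preserves `S₂(Γ₀(N))`. -/
theorem frickeOp : H958.X.FrickeOp := fun _ _ f => ⟨frickeCusp f, rfl⟩

/-- `W_N * W_N` is the scalar matrix `-N`. -/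
theorem frickeMatrix_mul_self (N : ℕ) [NeZero N] :
    H958.X.frickeMatrix N * H958.X.frickeMatrix N =
      Matrix.GeneralLinearGroup.scalar (Fin 2)
        (Units.mk0 (-(N : ℝ)) (neg_ne_zero.mpr (Nat.cast_ne_zero.mpr (NeZero.ne N)))) := by
  apply Units.ext
  rw [Units.val_mul, Matrix.GeneralLinearGroup.coe_scalar, isInt_frickeMatrix N]
  ext i j
  fin_cases i <;> fin_cases j <;> simp [Matrix.mul_apply, Fin.sum_univ_two]

/-- **X1b**: the Fricke operator is an involution in weight `2` (on all functions). -/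
theorem frickeInvol : H958.X.FrickeInvol := by
  intro N _ f
  rw [← SlashAction.slash_mul, frickeMatrix_mul_self, H923.slash_two_scalar]

/-- **X1c**: the Fricke operator commutes with `T_ℓ`, `ℓ ∤ N`. -/
theorem frickeHecke : H958.X.FrickeHecke := by
  intro N _ ℓ hℓ hℓN f
  have hf : H923.InvUnder (N * 1) 2 (⇑f : ℍ → ℂ) :=
    invUnder_mul_one (H923.invUnder_of_slashInvariantFormClass f)
  exact (H923.heckeT_slash_AL 2 (NeZero.ne N) hℓ (by rwa [Nat.mul_one]) hf
    (isAL_frickeMatrix N)).symm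

end Fermat.Agent.Lib.Newform.H16
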