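import Fermat.Agent.Lib.Newform.H958.X.Spec
import Fermat.Agent.Lib.Newform.H683.Main
import Fermat.Agent.Lib.Newform.H683.Extract

/-!
# NEWFORM block X (helper16): X8, the local case analysis for `CrossLevelSq`

`crossLevelSq_of_localIdentity : H958.X.LocalIdentity → H958.X.CrossLevelSq`.

Given a newform `f` of level `N` with `q² ∣ N` and a normalized eigenform `g` of level `N'` with
the same eigenvalues outside a finite set, pass to the newform `g₀` below `g` (level `M ∣ N'`)
and compare coefficients in the local identity at `q`: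
`X^{e'} X² P_{g₀} = c X^{e} P~_{g₀}` (as `a_q(f) = 0`), which is impossible for `e' ≤ 1`.
-/

set_option autoImplicit false

noncomputable section

namespace Fermat.Agent.Lib.Newform.H16

open Polynomial CongruenceSubgroup ModularFormClass
open Fermat.Agent.Lib.Newform
open Fermat.Agent.Lib.Newform.H958.X

/-- A prime `q` (as a complex number) does not satisfy `q³ = q`. -/
theorem prime_cube_ne (q : ℕ) (hq : q.Prime) : (q : ℂ) ^ 3 ≠ (q : ℂ) := by
  intro h
  have h1 : ((q ^ 3 : ℕ) : ℂ) = ((q : ℕ) : ℂ) := by push_cast; exact h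
  have h2 : q ^ 3 = q := by exact_mod_cast h1
  have h3 := hq.two_le
  nlinarith [pow_pos hq.pos 2]

/-- Local case `e' = 0`: impossible. -/
theorem local_case_zero (q : ℕ) (hq : q.Prime) (e : ℕ) (he : 2 ≤ e) (a c : ℂ)
    (h : (X : ℂ[X]) ^ 0 * X ^ 2 * (1 - C a * X + C (q : ℂ) * X ^ 2) =
      C c * (X ^ e * 1 * (X ^ 2 - C (a * ((q : ℂ) ^ 2)⁻¹) * X + C (((q : ℂ) ^ 3)⁻¹)))) :
    False := by
  have hq0 : (q : ℂ) ≠ 0 := Nat.cast_ne_zero.mpr hq.ne_zero
  have h2 := congrArg (fun P : ℂ[X] => P.coeff 2) h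
  have h4 := congrArg (fun P : ℂ[X] => P.coeff 4) h
  simp only [pow_zero, one_mul, mul_one] at h2 h4
  rw [coeff_X_pow_mul', coeff_C_mul, coeff_X_pow_mul'] at h2 h4
  rcases Nat.eq_or_lt_of_le he with he2 | he2
  · subst he2
    simp [Polynomial.coeff_one] at h2 h4
    apply prime_cube_ne q hq
    have hc : c = (q : ℂ) ^ 3 := by
      field_simp at h2
      exact h2.symm
    rw [← hc, ← h4]
  · simp [Nat.not_le.mpr he2, Polynomial.coeff_one] at h2

/-- Local case `e' = 1`: impossible. -/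
theorem local_case_one (q : ℕ) (hq : q.Prime) (e : ℕ) (he : 2 ≤ e) (a c : ℂ) (ha : a ^ 2 = 1)
    (h : (X : ℂ[X]) ^ 1 * X ^ 2 * (1 - C a * X + 0) =
      C c * (X ^ e * 1 * (X ^ 2 - C (a * ((q : ℂ) ^ 2)⁻¹) * X + 0))) :
    False := by
  have hq0 : (q : ℂ) ≠ 0 := Nat.cast_ne_zero.mpr hq.ne_zero
  have h3 := congrArg (fun P : ℂ[X] => P.coeff 3) h
  have h4 := congrArg (fun P : ℂ[X] => P.coeff 4) h
  have hX : (X : ℂ[X]) ^ 1 * X ^ 2 = X ^ 3 := by ring
  simp only [hX, mul_one, add_zero] at h3 h4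
  rw [coeff_X_pow_mul', coeff_C_mul, coeff_X_pow_mul'] at h3 h4
  rcases Nat.eq_or_lt_of_le he with he2 | he2
  · subst he2
    simp [Polynomial.coeff_one] at h3 h4
    -- h3 : 1 = -(c * (a * (q^2)⁻¹)),  h4 : -a = c
    apply prime_cube_ne q hq
    have h5 : (q : ℂ) ^ 2 = 1 := by
      rw [← h4] at h3
      field_simp at h3
      linear_combination h3 + ha
    rw [pow_succ, h5, one_mul]
  · rcases Nat.eq_or_lt_of_le he2 with he3 | he3
    · subst he3
      simp [Polynomial.coeff_one] at h3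
    · simp [Nat.not_le.mpr he3, Polynomial.coeff_one] at h3

/-- **X8** (local case analysis): the local identity implies `CrossLevelSq`. -/
theorem crossLevelSq_of_localIdentity (hL : LocalIdentity) : CrossLevelSq := by
  intro N N' _ _ f g hf hg S hS q hq hq2
  classical
  -- the newform below `g`
  obtain ⟨M, hMN', g₀, hg₀, hg₀g⟩ := H683.exists_newform_below (NeZero.ne N') g hg
  have hM0 : M ≠ 0 := fun h0 => NeZero.ne N' (by simpa [h0] using hMN')
  have : NeZero M := ⟨hM0⟩
  -- eigenvalues of `f` and `g₀` agree outside `S ∪ primeFactors N'`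
  have hagree : ∀ ℓ : ℕ, ℓ.Prime → ℓ ∉ S ∪ N'.primeFactors → qCoeff f ℓ = qCoeff g₀ ℓ := by
    intro ℓ hℓ hℓS
    rw [Finset.mem_union, not_or] at hℓS
    have hℓN' : ¬ ℓ ∣ N' := fun h =>
      hℓS.2 (Nat.mem_primeFactors.mpr ⟨hℓ, h, NeZero.ne N'⟩)
    rw [hS ℓ hℓ hℓS.1, hg₀g ℓ hℓ hℓN']
  obtain ⟨c, -, hc⟩ := hL N M f g₀ hf hg₀ (S ∪ N'.primeFactors) hagree q hq
  -- data at `q` for `f`
  have hqN : q ∣ N := dvd_trans (dvd_pow_self q two_ne_zero) hq2
  have haf : qCoeff f q = 0 := H683.qCoeff_eq_zero hf hq hq2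
  have he : 2 ≤ N.factorization q :=
    (hq.pow_dvd_iff_le_factorization (NeZero.ne N)).mp hq2
  have hPf : eulerPoly N (qCoeff f) q = 1 := by
    simp [eulerPoly, haf, hqN]
  have hRf : eulerPolyRev N (qCoeff f) q = X ^ 2 := by
    simp [eulerPolyRev, haf, hqN]
  rw [hPf, hRf] at hc
  -- conclude by contradiction
  refine dvd_trans ?_ hMN'
  by_contra hq2M
  by_cases hqM : q ∣ M
  · -- `e' = 1`
    have he' : M.factorization q = 1 := by
      have h1 : 1 ≤ M.factorization q :=
        (hq.pow_dvd_iff_le_factorization hM0).mp (by simpa using hqM)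
      have h2 : ¬ 2 ≤ M.factorization q := fun h =>
        hq2M ((hq.pow_dvd_iff_le_factorization hM0).mpr h)
      omega
    have ha : qCoeff g₀ q ^ 2 = 1 := H683.qCoeff_sq_eq_one hg₀ hq hqM hq2M
    rw [he'] at hc
    simp only [eulerPoly, eulerPolyRev, if_pos hqM] at hc
    exact local_case_one q hq _ he _ c ha hc
  · -- `e' = 0`
    have he' : M.factorization q = 0 := Nat.factorization_eq_zero_of_not_dvd hqM
    rw [he'] at hc
    simp only [eulerPoly, eulerPolyRev, if_neg hqM] at hc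
    exact local_case_zero q hq _ he _ c hc

end Fermat.Agent.Lib.Newform.H16
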